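import Mathlib.MeasureTheory.Measure.CharacteristicFunction.Basic
import Mathlib.Analysis.Complex.Trigonometric

/-!
# Characteristic functions near zero
-/

set_option autoImplicit false

noncomputable section

namespace FA.Lindeberg

open MeasureTheory Finset Complex
open scoped Real

/-- The truncated second moment. -/
def tailSq (ε x : ℝ) : ℝ := {y : ℝ | ε < |y|}.indicator (fun y => y ^ 2) x

theorem tailSq_nonneg (ε x : ℝ) : 0 ≤ tailSq ε x :=
  Set.indicator_nonneg (fun y _ => sq_nonneg y) x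

theorem tailSq_le (ε x : ℝ) : tailSq ε x ≤ x ^ 2 :=
  Set.indicator_le_self' (fun y _ => sq_nonneg y) x

theorem measurable_tailSq (ε : ℝ) : Measurable (tailSq ε) :=
  (measurable_id.pow_const 2).indicator (measurableSet_lt measurable_const measurable_norm)

theorem integrable_tailSq {μ : Measure ℝ} (hμ : Integrable (fun x => x ^ 2) μ) (ε : ℝ) :
    Integrable (tailSq ε) μ :=
  hμ.mono' (measurable_tailSq ε).aestronglyMeasurable (.of_forall fun x => by
    rw [Real.norm_eq_abs, abs_of_nonneg (tailSq_nonneg ε x)]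
    exact tailSq_le ε x)

/-- The second order remainder of `exp (i y)`. -/
def expRem (y : ℝ) : ℂ := exp (y * I) - (1 + y * I - (y : ℂ) ^ 2 / 2)

theorem norm_expRem_le (y : ℝ) : ‖expRem y‖ ≤ 4 * |y| ^ 3 ∧ ‖expRem y‖ ≤ 4 * y ^ 2 := by
  rcases le_or_gt |y| 1 with h | h
  · have hn : ‖(y : ℂ) * I‖ = |y| := by simp
    have h3 := Complex.exp_bound (x := (y : ℂ) * I) (hn.le.trans h) (n := 3) (by norm_num)
    have hsum : ∑ m ∈ range 3, ((y : ℂ) * I) ^ m / (m.factorial : ℂ) =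
        1 + y * I - (y : ℂ) ^ 2 / 2 := by
      simp [sum_range_succ, mul_pow, sub_eq_add_neg, neg_div, Nat.factorial]
    rw [hsum, hn] at h3
    have h0 : 0 ≤ |y| ^ 3 := by positivity
    have h4 : ‖expRem y‖ ≤ |y| ^ 3 := h3.trans (mul_le_of_le_one_right h0 (by norm_num))
    refine ⟨h4.trans (by linarith), h4.trans ?_⟩
    have := pow_le_pow_of_le_one (abs_nonneg y) h (show 2 ≤ 3 by norm_num)
    rw [sq_abs] at this
    nlinarith [sq_nonneg y]
  · have h1 : ‖expRem y‖ ≤ 1 + (1 + |y| + y ^ 2 / 2) := by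
      rw [expRem]
      refine (norm_sub_le _ _).trans (add_le_add (norm_exp_ofReal_mul_I y).le ?_)
      refine (norm_sub_le _ _).trans (add_le_add ((norm_add_le _ _).trans_eq (by simp)) ?_)
      simp
    have hy : |y| ≤ y ^ 2 := by rw [← sq_abs]; nlinarith
    have h3 : y ^ 2 ≤ |y| ^ 3 := by rw [← sq_abs]; nlinarith
    have h2 : 1 ≤ y ^ 2 := by nlinarith [sq_abs y]
    exact ⟨by linarith, by linarith⟩

theorem norm_expRem_mul_le {ε : ℝ} (hε : 0 ≤ ε) (t x : ℝ) :
    ‖expRem (t * x)‖ ≤ 4 * ε * |t| ^ 3 * x ^ 2 + 4 * t ^ 2 * tailSq ε x := by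
  obtain ⟨h3, h2⟩ := norm_expRem_le (t * x)
  by_cases hx : ε < |x|
  · rw [tailSq, Set.indicator_of_mem (show x ∈ {y : ℝ | ε < |y|} from hx)]
    refine h2.trans (le_add_of_nonneg_of_le (by positivity) ?_)
    rw [mul_pow, mul_assoc]
  · rw [tailSq, Set.indicator_of_notMem (show x ∉ {y : ℝ | ε < |y|} from hx), mul_zero,
      add_zero]
    refine h3.trans ?_
    rw [abs_mul, mul_pow, mul_assoc 4 ε, mul_assoc 4]
    refine mul_le_mul_of_nonneg_left ?_ (by norm_num)
    calc |t| ^ 3 * |x| ^ 3 = |t| ^ 3 * x ^ 2 * |x| := by rw [pow_succ |x| 2, sq_abs]; ring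
      _ ≤ |t| ^ 3 * x ^ 2 * ε := mul_le_mul_of_nonneg_left (not_lt.1 hx) (by positivity)
      _ = ε * |t| ^ 3 * x ^ 2 := by ring

theorem norm_prod_sub_le {ι : Type*} (s : Finset ι) (a b : ι → ℂ) (ha : ∀ i ∈ s, ‖a i‖ ≤ 1)
    (hb : ∀ i ∈ s, ‖b i‖ ≤ 1) : ‖∏ i ∈ s, a i - ∏ i ∈ s, b i‖ ≤ ∑ i ∈ s, ‖a i - b i‖ := by
  induction s using Finset.cons_induction with
  | empty => simp
  | cons i s hi ih =>
    rw [prod_cons, prod_cons, sum_cons]
    have e : a i * ∏ j ∈ s, a j - b i * ∏ j ∈ s, b j =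
        (a i - b i) * ∏ j ∈ s, a j + b i * (∏ j ∈ s, a j - ∏ j ∈ s, b j) := by ring
    rw [e]
    refine (norm_add_le _ _).trans (add_le_add ?_ ?_)
    · rw [norm_mul, norm_prod]
      exact mul_le_of_le_one_right (norm_nonneg _)
        (prod_le_one (fun j _ => norm_nonneg _) fun j hj => ha j (mem_cons_of_mem hj))
    · rw [norm_mul]
      exact (mul_le_of_le_one_left (norm_nonneg _) (hb i (mem_cons_self _ _))).trans
        (ih (fun j hj => ha j (mem_cons_of_mem hj)) fun j hj => hb j (mem_cons_of_mem hj))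

theorem abs_exp_neg_sub_le {a : ℝ} (ha : 0 ≤ a) : |Real.exp (-a) - (1 - a)| ≤ a ^ 2 := by
  have h1 := Real.add_one_le_exp a
  have h2 := Real.add_one_le_exp (-a)
  have h3 : Real.exp (-a) ≤ 1 - a + a ^ 2 := by
    rw [Real.exp_neg]
    refine (inv_anti₀ (by linarith) h1).trans ?_
    rw [inv_le_iff_one_le_mul₀ (by linarith)]
    nlinarith [pow_nonneg ha 3]
  rw [abs_le]
  exact ⟨by linarith [sq_nonneg a], by linarith⟩

/-- The characteristic function against `exp (-t ^ 2 σ ^ 2 / 2)`. -/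
theorem norm_charFun_sub_exp_le (μ : Measure ℝ) [IsProbabilityMeasure μ]
    (hμ : Integrable (fun x => x ^ 2) μ) (h0 : ∫ x, x ∂μ = 0) {ε : ℝ} (hε : 0 ≤ ε) (t : ℝ) :
    ‖charFun μ t - Real.exp (-(t ^ 2 * ∫ x, x ^ 2 ∂μ) / 2)‖ ≤
      4 * ε * |t| ^ 3 * (∫ x, x ^ 2 ∂μ) + 4 * t ^ 2 * (∫ x, tailSq ε x ∂μ) +
        t ^ 4 / 4 * (ε ^ 2 + ∫ x, tailSq ε x ∂μ) * ∫ x, x ^ 2 ∂μ := by
  set v := ∫ x, x ^ 2 ∂μ with hv
  set L := ∫ x, tailSq ε x ∂μ with hL
  have hv0 : 0 ≤ v := integral_nonneg fun x => sq_nonneg x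
  have hid : Integrable (fun x : ℝ => x) μ :=
    (hμ.add (integrable_const (1 : ℝ))).mono' measurable_id.aestronglyMeasurable
      (.of_forall fun x => by
        simp only [Pi.add_apply, Real.norm_eq_abs]
        nlinarith [sq_nonneg (|x| - 1), sq_abs x])
  have hexp : Integrable (fun x : ℝ => exp (((t * x : ℝ) : ℂ) * I)) μ :=
    Integrable.of_bound (by fun_prop) 1 (.of_forall fun x => (norm_exp_ofReal_mul_I _).le)
  have i1 : Integrable (fun x : ℝ => (1 : ℂ) + ((t * x : ℝ) : ℂ) * I) μ :=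
    (integrable_const _).add ((hid.const_mul t).ofReal.mul_const I)
  have i2 : Integrable (fun x : ℝ => ((t ^ 2 / 2 * x ^ 2 : ℝ) : ℂ)) μ :=
    (hμ.const_mul (t ^ 2 / 2)).ofReal
  have i3 : Integrable (fun x : ℝ => ((t * x : ℝ) : ℂ) * I) μ :=
    (hid.const_mul t).ofReal.mul_const I
  have hrem : ∀ x : ℝ, expRem (t * x) = exp (((t * x : ℝ) : ℂ) * I) -
      (1 + ((t * x : ℝ) : ℂ) * I - ((t ^ 2 / 2 * x ^ 2 : ℝ) : ℂ)) := fun x => by
    rw [expRem]
    push_cast
    ring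
  have e : charFun μ t - (1 - (t : ℂ) ^ 2 * v / 2) = ∫ x, expRem (t * x) ∂μ := by
    simp only [hrem]
    rw [integral_sub hexp (show Integrable (fun x : ℝ => (1 : ℂ) + ((t * x : ℝ) : ℂ) * I -
        ((t ^ 2 / 2 * x ^ 2 : ℝ) : ℂ)) μ from i1.sub i2),
      integral_sub i1 i2, integral_add (integrable_const _) i3, charFun_apply_real,
      integral_mul_const, integral_complex_ofReal, integral_complex_ofReal, integral_const_mul,
      integral_const_mul, h0, ← hv]
    push_cast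
    simp
    ring
  have h1 : ‖charFun μ t - (1 - (t : ℂ) ^ 2 * v / 2)‖ ≤
      4 * ε * |t| ^ 3 * v + 4 * t ^ 2 * L := by
    rw [e, hv, hL, ← integral_const_mul, ← integral_const_mul,
      ← integral_add (hμ.const_mul _) ((integrable_tailSq hμ ε).const_mul _)]
    exact norm_integral_le_of_norm_le ((hμ.const_mul _).add ((integrable_tailSq hμ ε).const_mul _))
      (.of_forall fun x => norm_expRem_mul_le hε t x)
  have hvL : v ≤ ε ^ 2 + L := by
    have h : ∫ x, x ^ 2 ∂μ ≤ ∫ x, (ε ^ 2 + tailSq ε x) ∂μ :=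
      integral_mono hμ ((integrable_const _).add (integrable_tailSq hμ ε)) fun x => by
        by_cases hx : ε < |x|
        · rw [tailSq, Set.indicator_of_mem (show x ∈ {y : ℝ | ε < |y|} from hx)]
          exact le_add_of_nonneg_left (sq_nonneg ε)
        · rw [tailSq, Set.indicator_of_notMem (show x ∉ {y : ℝ | ε < |y|} from hx), add_zero,
            ← sq_abs]
          exact pow_le_pow_left₀ (abs_nonneg x) (not_lt.1 hx) 2
    rwa [integral_add (integrable_const _) (integrable_tailSq hμ ε), integral_const,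
      probReal_univ, one_smul] at h
  have h2 : ‖(1 - (t : ℂ) ^ 2 * v / 2) - Real.exp (-(t ^ 2 * v) / 2)‖ ≤
      t ^ 4 / 4 * (ε ^ 2 + L) * v := by
    have h := abs_exp_neg_sub_le (a := t ^ 2 * v / 2) (by positivity)
    rw [show (1 - (t : ℂ) ^ 2 * v / 2) = ((1 - t ^ 2 * v / 2 : ℝ) : ℂ) by push_cast; ring,
      ← ofReal_sub, norm_real, Real.norm_eq_abs, abs_sub_comm, neg_div]
    refine h.trans ?_
    rw [div_pow, mul_pow, ← pow_mul, sq v]
    have h4 := mul_le_mul_of_nonneg_left (mul_le_mul_of_nonneg_right hvL hv0)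
      (show 0 ≤ t ^ 4 / 4 by positivity)
    linarith
  exact (norm_sub_le_norm_sub_add_norm_sub _ _ _).trans (add_le_add h1 h2)

end FA.Lindeberg
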