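import Fermat.Agent.Lindeberg.Main
import Mathlib.Probability.Moments.Variance
import Mathlib.Analysis.SpecialFunctions.Pow.Real
import Mathlib.Analysis.PSeries

/-!
# The conditions of Lyapunov, bounded variables, indicators
-/

set_option autoImplicit false

noncomputable section

namespace FA.Lindeberg

open MeasureTheory ProbabilityTheory Filter Topology Finset

theorem tailSq_le_rpow {ε d : ℝ} (hε : 0 < ε) (hd : 0 < d) (x : ℝ) :
    tailSq ε x ≤ |x| ^ (2 + d) / ε ^ d := by
  by_cases hx : ε < |x|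
  · rw [tailSq, Set.indicator_of_mem (show x ∈ {y : ℝ | ε < |y|} from hx),
      le_div_iff₀ (Real.rpow_pos_of_pos hε d), Real.rpow_add (hε.trans hx), Real.rpow_two, sq_abs]
    exact mul_le_mul_of_nonneg_left (Real.rpow_le_rpow hε.le hx.le hd.le) (sq_nonneg x)
  · rw [tailSq, Set.indicator_of_notMem (show x ∉ {y : ℝ | ε < |y|} from hx)]
    positivity

/-- Lyapunov's condition gives Lindeberg's. -/
theorem tendsto_lindebergSum_of_lyapunov {Ω : ℕ → Type*} {mΩ : ∀ n, MeasurableSpace (Ω n)}
    (P : ∀ n, Measure (Ω n)) {κ : ℕ → Type*} [∀ n, Fintype (κ n)] (X : ∀ n, κ n → Ω n → ℝ)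
    {d : ℝ} (hd : 0 < d) (hint : ∀ n i, Integrable (fun ω => |X n i ω| ^ (2 + d)) (P n))
    (hlya : Tendsto (fun n => ∑ i, ∫ ω, |X n i ω| ^ (2 + d) ∂(P n)) atTop (𝓝 0))
    (ε : ℝ) (hε : 0 < ε) : Tendsto (fun n => lindebergSum P X n ε) atTop (𝓝 0) := by
  have h := hlya.div_const (ε ^ d)
  rw [zero_div] at h
  refine squeeze_zero (fun n => lindebergSum_nonneg P X n ε) (fun n => ?_) h
  rw [sum_div]
  refine sum_le_sum fun i _ => ?_
  rw [← integral_div]
  exact integral_mono_of_nonneg (.of_forall fun ω => tailSq_nonneg ε _) ((hint n i).div_const _)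
    (.of_forall fun ω => tailSq_le_rpow hε hd _)

section Bounded

variable {Ω : Type*} {mΩ : MeasurableSpace Ω} (P : Measure Ω) [IsProbabilityMeasure P]
  (X : ℕ → Ω → ℝ) (hm : ∀ k, AEMeasurable (X k) P) (hind : iIndepFun X P) {C : ℝ}
  (hC : ∀ k ω, |X k ω| ≤ C)

/-- The variance of a sum of the first `n`. -/
def totalVar (n : ℕ) : ℝ := ∑ k ∈ range n, variance (X k) P

/-- The standardised `k`th summand of the `n`th row. -/
def stdTerm (n : ℕ) (k : Fin n) (ω : Ω) : ℝ :=
  (√(totalVar P X n))⁻¹ * (X k ω - ∫ ω', X k ω' ∂P)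

include hm hind hC

theorem bounded_standardised (hdiv : Tendsto (totalVar P X) atTop atTop) :
    TendstoInDistribution
      (fun n ω => (√(totalVar P X n))⁻¹ * ∑ k ∈ range n, (X k ω - ∫ ω', X k ω' ∂P))
      atTop id (fun _ => P) (gaussianReal 0 1) := by
  have hsum : (fun n ω => (√(totalVar P X n))⁻¹ * ∑ k ∈ range n, (X k ω - ∫ ω', X k ω' ∂P)) =
      fun n ω => ∑ k : Fin n, stdTerm P X n k ω := by
    funext n ω
    rw [← Fin.sum_univ_eq_sum_range (fun k => X k ω - ∫ ω', X k ω' ∂P), mul_sum]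
    rfl
  rw [hsum]
  have hint : ∀ k, Integrable (X k) P := fun k =>
    Integrable.of_bound (hm k).aestronglyMeasurable C (.of_forall fun ω => hC k ω)
  have hC0 : ∀ k, |∫ ω', X k ω' ∂P| ≤ C := fun k => by
    simpa using norm_integral_le_of_norm_le_const (μ := P) (f := X k) (C := C)
      (.of_forall fun ω => hC k ω)
  have hb : ∀ n (k : Fin n) ω, |stdTerm P X n k ω| ≤ (√(totalVar P X n))⁻¹ * (C + C) :=
    fun n k ω => by
      rw [stdTerm, abs_mul, abs_inv, abs_of_nonneg (Real.sqrt_nonneg _)]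
      exact mul_le_mul_of_nonneg_left ((abs_sub _ _).trans (add_le_add (hC _ ω) (hC0 _)))
        (by positivity)
  have hmT : ∀ n (k : Fin n), AEMeasurable (stdTerm P X n k) P := fun n k =>
    ((hm k).sub_const _).const_mul _
  refine tendstoInDistribution_rowSum (fun _ => P) (stdTerm P X) hmT (fun n => ?_) (fun n k => ?_)
    (fun n k => ?_) ?_ fun ε hε => ?_
  · exact (hind.precomp Fin.val_injective).comp
      (fun (k : Fin n) x => (√(totalVar P X n))⁻¹ * (x - ∫ ω', X k ω' ∂P)) fun k => by fun_prop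
  · refine Integrable.of_bound ((hmT n k).pow_const 2).aestronglyMeasurable
      (((√(totalVar P X n))⁻¹ * (C + C)) ^ 2) (.of_forall fun ω => ?_)
    rw [Real.norm_eq_abs, abs_pow]
    exact pow_le_pow_left₀ (abs_nonneg _) (hb n k ω) 2
  · simp only [stdTerm]
    rw [integral_const_mul, integral_sub (hint _) (integrable_const _), integral_const,
      probReal_univ, one_smul, sub_self, mul_zero]
  · refine tendsto_const_nhds.congr' ?_
    filter_upwards [hdiv.eventually_gt_atTop 0] with n hn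
    simp only [stdTerm, mul_pow, integral_const_mul, ← variance_eq_integral (hm _)]
    rw [← mul_sum, Fin.sum_univ_eq_sum_range (fun k => variance (X k) P), inv_pow,
      Real.sq_sqrt hn.le]
    exact (inv_mul_cancel₀ hn.ne').symm
  · refine tendsto_const_nhds.congr' ?_
    have h : Tendsto (fun n => (√(totalVar P X n))⁻¹ * (C + C)) atTop (𝓝 0) := by
      simpa using
        (tendsto_inv_atTop_zero.comp (Real.tendsto_sqrt_atTop.comp hdiv)).mul_const (C + C)
    filter_upwards [h.eventually_lt_const hε] with n hn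
    refine (sum_eq_zero fun k _ => integral_eq_zero_of_ae (.of_forall fun ω => ?_)).symm
    exact Set.indicator_of_notMem
      (show stdTerm P X n k ω ∉ {y : ℝ | ε < |y|} from not_lt.2 ((hb n k ω).trans hn.le)) _

end Bounded

/-- Indicators with divergent total variance. -/
theorem indicator_standardised {Ω : Type*} {mΩ : MeasurableSpace Ω} (P : Measure Ω)
    [IsProbabilityMeasure P] (X : ℕ → Ω → ℝ) (hm : ∀ k, AEMeasurable (X k) P)
    (hind : iIndepFun X P) (h01 : ∀ k ω, X k ω = 0 ∨ X k ω = 1) (p : ℕ → ℝ)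
    (hp : ∀ k, ∫ ω, X k ω ∂P = p k)
    (hdiv : Tendsto (fun n => ∑ k ∈ range n, p k * (1 - p k)) atTop atTop) :
    TendstoInDistribution
      (fun n ω => (√(∑ k ∈ range n, p k * (1 - p k)))⁻¹ * ∑ k ∈ range n, (X k ω - p k))
      atTop id (fun _ => P) (gaussianReal 0 1) := by
  have hC : ∀ k ω, |X k ω| ≤ 1 := fun k ω => by rcases h01 k ω with h | h <;> simp [h]
  have hvar : totalVar P X = fun n => ∑ k ∈ range n, p k * (1 - p k) := funext fun n =>
    sum_congr rfl fun k _ => by
      rw [variance_eq_sub (MemLp.of_bound (hm k).aestronglyMeasurable 1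
        (.of_forall fun ω => hC k ω))]
      have e : X k ^ 2 = X k := funext fun ω => by rcases h01 k ω with h | h <;> simp [h]
      rw [e, hp]
      ring
  have h := bounded_standardised P X hm hind hC (hvar ▸ hdiv)
  simp only [hvar, hp] at h
  exact h

theorem harmonic_variance_diverges :
    Tendsto (fun n => ∑ k ∈ range n, (1 : ℝ) / (k + 1) * (1 - 1 / (k + 1))) atTop atTop := by
  have h2 : Summable fun k : ℕ => (1 : ℝ) / (k + 1) * (1 / (k + 1)) := by
    have h := (summable_nat_add_iff (f := fun k : ℕ => ((k : ℝ) ^ 2)⁻¹) 1).2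
      (Real.summable_nat_pow_inv.2 one_lt_two)
    refine h.congr fun k => ?_
    push_cast
    rw [one_div, sq, mul_inv]
  have e : (fun n => ∑ k ∈ range n, (1 : ℝ) / (k + 1) * (1 - 1 / (k + 1))) = fun n =>
      -∑ k ∈ range n, (1 : ℝ) / (k + 1) * (1 / (k + 1)) + ∑ k ∈ range n, (1 : ℝ) / (k + 1) :=
    funext fun n => by rw [← sub_eq_neg_add, ← sum_sub_distrib]; simp only [mul_sub, mul_one]
  rw [e]
  exact h2.hasSum.tendsto_sum_nat.neg.add_atTop Real.tendsto_sum_range_one_div_nat_succ_atTop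

end FA.Lindeberg
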