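import Fermat.Agent.Lindeberg.Taylor
import Mathlib.MeasureTheory.Function.ConvergenceInDistribution
import Mathlib.MeasureTheory.Measure.LevyConvergence
import Mathlib.Probability.Distributions.Gaussian.Real
import Mathlib.Probability.Independence.CharacteristicFunction

/-!
# The Lindeberg central limit theorem
-/

set_option autoImplicit false

noncomputable section

namespace FA.Lindeberg

open MeasureTheory ProbabilityTheory Filter Topology Finset

variable {Ω : ℕ → Type*} {mΩ : ∀ n, MeasurableSpace (Ω n)} (P : ∀ n, Measure (Ω n))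
  [∀ n, IsProbabilityMeasure (P n)] {κ : ℕ → Type*} [∀ n, Fintype (κ n)]
  (X : ∀ n, κ n → Ω n → ℝ)

/-- The Lindeberg sum of a row. -/
def lindebergSum (n : ℕ) (ε : ℝ) : ℝ := ∑ i, ∫ ω, tailSq ε (X n i ω) ∂(P n)

omit [∀ n, IsProbabilityMeasure (P n)] in
theorem lindebergSum_nonneg (n : ℕ) (ε : ℝ) : 0 ≤ lindebergSum P X n ε :=
  sum_nonneg fun _ _ => integral_nonneg fun _ => tailSq_nonneg _ _

variable (hm : ∀ n i, AEMeasurable (X n i) (P n)) (hind : ∀ n, iIndepFun (X n) (P n))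
  (hL2 : ∀ n i, Integrable (fun ω => X n i ω ^ 2) (P n)) (h0 : ∀ n i, ∫ ω, X n i ω ∂(P n) = 0)
include hm hind hL2 h0

/-- The characteristic function of a row sum against that of the normal law. -/
theorem norm_charFun_rowSum_le (n : ℕ) {ε : ℝ} (hε : 0 ≤ ε) (t : ℝ) :
    ‖charFun ((P n).map fun ω => ∑ i, X n i ω) t - Real.exp (-t ^ 2 / 2)‖ ≤
      4 * ε * |t| ^ 3 * (∑ i, ∫ ω, X n i ω ^ 2 ∂(P n)) + 4 * t ^ 2 * lindebergSum P X n ε +
        t ^ 4 / 4 * (ε ^ 2 + lindebergSum P X n ε) * (∑ i, ∫ ω, X n i ω ^ 2 ∂(P n)) +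
          |Real.exp (-(t ^ 2 * ∑ i, ∫ ω, X n i ω ^ 2 ∂(P n)) / 2) - Real.exp (-t ^ 2 / 2)| := by
  set v := fun i => ∫ ω, X n i ω ^ 2 ∂(P n) with hv
  set L := fun i => ∫ ω, tailSq ε (X n i ω) ∂(P n) with hL
  have hp : ∀ i, IsProbabilityMeasure ((P n).map (X n i)) := fun i =>
    Measure.isProbabilityMeasure_map (hm n i)
  have hi : ∀ i, ‖charFun ((P n).map (X n i)) t - Real.exp (-(t ^ 2 * v i) / 2)‖ ≤
      4 * ε * |t| ^ 3 * v i + 4 * t ^ 2 * L i + t ^ 4 / 4 * (ε ^ 2 + L i) * v i := fun i => by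
    have := hp i
    have e2 : ∫ x, x ^ 2 ∂((P n).map (X n i)) = v i := integral_map (hm n i) (by fun_prop)
    have e3 : ∫ x, tailSq ε x ∂((P n).map (X n i)) = L i :=
      integral_map (hm n i) (measurable_tailSq ε).aestronglyMeasurable
    have h := norm_charFun_sub_exp_le ((P n).map (X n i))
      ((integrable_map_measure (by fun_prop) (hm n i)).2 (hL2 n i))
      (by rw [integral_map (hm n i) (by fun_prop)]; exact h0 n i) hε t
    rwa [e2, e3] at h
  have hv0 : ∀ i, 0 ≤ v i := fun i => integral_nonneg fun ω => sq_nonneg _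
  have hLle : ∀ i, L i ≤ lindebergSum P X n ε := fun i =>
    single_le_sum (fun j _ => integral_nonneg fun ω => tailSq_nonneg ε (X n j ω)) (mem_univ i)
  have hprod : (Real.exp (-(t ^ 2 * ∑ i, v i) / 2) : ℂ) =
      ∏ i, (Real.exp (-(t ^ 2 * v i) / 2) : ℂ) := by
    rw [← Complex.ofReal_prod, ← Real.exp_sum, mul_sum, ← sum_neg_distrib, sum_div]
  rw [congrFun ((hind n).charFun_map_fun_sum_eq_prod (hm n)) t, Finset.prod_apply]
  refine (norm_sub_le_norm_sub_add_norm_sub _ (Real.exp (-(t ^ 2 * ∑ i, v i) / 2) : ℂ) _).trans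
    (add_le_add ?_ (by rw [← Complex.ofReal_sub, Complex.norm_real, Real.norm_eq_abs]))
  rw [hprod]
  refine (norm_prod_sub_le univ _ _ (fun i _ => ?_) fun i _ => ?_).trans ?_
  · have := hp i
    exact norm_charFun_le_one _
  · rw [Complex.norm_real, Real.norm_eq_abs, Real.abs_exp, Real.exp_le_one_iff]
    have := mul_nonneg (sq_nonneg t) (hv0 i)
    linarith
  · have hi' : ∀ i, ‖charFun ((P n).map (X n i)) t - Real.exp (-(t ^ 2 * v i) / 2)‖ ≤
        4 * ε * |t| ^ 3 * v i + 4 * t ^ 2 * L i +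
          t ^ 4 / 4 * (ε ^ 2 + lindebergSum P X n ε) * v i := fun i => by
      have h := mul_le_mul_of_nonneg_right (mul_le_mul_of_nonneg_left (hLle i)
        (show 0 ≤ t ^ 4 / 4 by positivity)) (hv0 i)
      linarith [hi i]
    refine (sum_le_sum fun i _ => hi' i).trans_eq ?_
    simp only [sum_add_distrib, ← mul_sum]
    rfl

variable (hV : Tendsto (fun n => ∑ i, ∫ ω, X n i ω ^ 2 ∂(P n)) atTop (𝓝 1))
  (hLind : ∀ ε > 0, Tendsto (fun n => lindebergSum P X n ε) atTop (𝓝 0))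
include hV hLind

theorem tendsto_charFun_rowSum (t : ℝ) :
    Tendsto (fun n => charFun ((P n).map fun ω => ∑ i, X n i ω) t) atTop
      (𝓝 (Real.exp (-t ^ 2 / 2) : ℂ)) := by
  refine tendsto_iff_norm_sub_tendsto_zero.2 (tendsto_order.2 ⟨fun c hc => .of_forall fun n =>
    hc.trans_le (norm_nonneg _), fun c hc => ?_⟩)
  have hF : Tendsto (fun ε : ℝ => 4 * ε * |t| ^ 3 + t ^ 4 / 4 * ε ^ 2) (𝓝[>] 0) (𝓝 0) := by
    refine Tendsto.mono_left ?_ nhdsWithin_le_nhds
    simpa using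
      (by fun_prop : Continuous fun ε : ℝ => 4 * ε * |t| ^ 3 + t ^ 4 / 4 * ε ^ 2).tendsto 0
  obtain ⟨ε, hεc, hε⟩ := ((hF.eventually_lt_const hc).and self_mem_nhdsWithin).exists
  have hlim := (((hV.const_mul (4 * ε * |t| ^ 3)).add ((hLind ε hε).const_mul (4 * t ^ 2))).add
    ((((hLind ε hε).const_add (ε ^ 2)).const_mul (t ^ 4 / 4)).mul hV)).add
      (((((hV.const_mul (t ^ 2)).neg.div_const 2).rexp).sub_const (Real.exp (-t ^ 2 / 2))).abs)
  simp only [mul_one, mul_zero, add_zero, sub_self, abs_zero] at hlim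
  filter_upwards [hlim.eventually_lt_const hεc] with n hn
  exact (norm_charFun_rowSum_le P X hm hind hL2 h0 n hε.le t).trans_lt hn

/-- **The Lindeberg central limit theorem.** -/
theorem tendstoInDistribution_rowSum :
    TendstoInDistribution (fun n ω => ∑ i, X n i ω) atTop id P (gaussianReal 0 1) where
  forall_aemeasurable n := Finset.aemeasurable_fun_sum _ fun i _ => hm n i
  tendsto := by
    refine ProbabilityMeasure.tendsto_iff_tendsto_charFun.2 fun t => ?_
    have h := tendsto_charFun_rowSum P X hm hind hL2 h0 hV hLind t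
    simpa [charFun_gaussianReal, neg_div] using h

end FA.Lindeberg
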